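import Fermat.Agent.Modular.HeckeDualityForms
import Fermat.Agent.Basic.EigenformLift

/-!
# Every character of a weight two Hecke algebra is the character of an eigenform
-/

set_option autoImplicit false

noncomputable section

open CongruenceSubgroup ModularFormClass

namespace FermatLib.Modular.Newforms

variable {N : ℕ} [NeZero N]

/-- A character of the full Hecke algebra is realised by a normalised eigenform. -/
theorem exists_normalizedEigenform_of_character
    (χ : ↥(CuspForm.heckeAlgebra N 2 (∅ : Set ℕ)) →+* ℂ) :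
    ∃ f : CuspForm (Gamma0 N) 2, f.IsNormalizedEigenform ∧
      (∀ t : ↥(CuspForm.heckeAlgebra N 2 (∅ : Set ℕ)),
        (t : Module.End ℂ (CuspForm (Gamma0 N) 2)) f = χ t • f) ∧
      (∀ (ℓ : ℕ) (hℓ : ℓ.Prime) (hℓN : ¬ ℓ ∣ N),
        qCoeff ⇑f ℓ = χ (CuspForm.heckeAlgebra.T hℓ hℓN (Set.notMem_empty ℓ))) ∧
      (∀ (q : ℕ) (hq : q.Prime) (hqN : q ∣ N),
        qCoeff ⇑f q = χ (CuspForm.heckeAlgebra.U hq hqN (Set.notMem_empty q))) := by
  obtain ⟨v, hv⟩ := (cuspFormHeckePairing_bijective N).2 χ.toAddMonoidHom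
  have h1 : ∀ t, cuspFormHeckePairing N v t = χ t := fun t => DFunLike.congr_fun hv t
  refine FermatLib.Basic.exists_normalizedEigenform_of_eigenchar v (fun h0 => ?_) χ fun t => ?_
  · have := h1 1
    rw [h0, map_zero, AddMonoidHom.zero_apply, map_one] at this
    exact zero_ne_one this
  · refine cuspFormHeckePairing_injective N (AddMonoidHom.ext fun s => ?_)
    rw [map_smul, AddMonoidHom.smul_apply, h1, smul_eq_mul, cuspFormHeckePairing_apply,
      ← Module.End.mul_apply, ← MulMemClass.coe_mul, ← cuspFormHeckePairing_apply, h1, map_mul,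
      mul_comm]

/-- A ring map between domains that are integral over a subring extends to `ℂ`. -/
theorem exists_ringHom_extends {A B : Type*} [CommRing A] [CommRing B] [Algebra A B]
    [Algebra.IsIntegral A B] (hinj : Function.Injective (algebraMap A B)) (χ : A →+* ℂ) :
    ∃ ψ : B →+* ℂ, ψ.comp (algebraMap A B) = χ := by
  have : (RingHom.ker χ).IsPrime := RingHom.ker_isPrime χ
  obtain ⟨Q, -, hQ, hQP⟩ := Ideal.exists_ideal_over_prime_of_isIntegral (RingHom.ker χ) (⊥ : Ideal B)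
    (by rw [← RingHom.ker_eq_comap_bot, (RingHom.injective_iff_ker_eq_bot _).1 hinj]; exact bot_le)
  have : Q.LiesOver (RingHom.ker χ) := ⟨hQP.symm⟩
  let : Algebra (A ⧸ RingHom.ker χ) ℂ := (RingHom.kerLift χ).toAlgebra
  have : Module.IsTorsionFree (A ⧸ RingHom.ker χ) ℂ := by
    have : FaithfulSMul (A ⧸ RingHom.ker χ) ℂ :=
      (faithfulSMul_iff_algebraMap_injective _ _).2 (RingHom.kerLift_injective χ)
    infer_instance
  have : Algebra.IsIntegral (A ⧸ RingHom.ker χ) (B ⧸ Q) := inferInstance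
  refine ⟨(IsAlgClosed.lift (R := A ⧸ RingHom.ker χ) (S := B ⧸ Q) (M := ℂ)).toRingHom.comp
    (Ideal.Quotient.mk Q), RingHom.ext fun a => ?_⟩
  have h := (IsAlgClosed.lift (R := A ⧸ RingHom.ker χ) (S := B ⧸ Q) (M := ℂ)).commutes
    (Ideal.Quotient.mk (RingHom.ker χ) a)
  simpa [Ideal.Quotient.algebraMap_mk_of_liesOver, RingHom.algebraMap_toAlgebra] using h

/-- A character of the Hecke algebra away from `S` is realised by a normalised eigenform. -/
theorem exists_normalizedEigenform_of_character_away {S : Set ℕ}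
    (χ : ↥(CuspForm.heckeAlgebra N 2 S) →+* ℂ) :
    ∃ f : CuspForm (Gamma0 N) 2, f.IsNormalizedEigenform ∧
      (∀ t : ↥(CuspForm.heckeAlgebra N 2 S),
        (t : Module.End ℂ (CuspForm (Gamma0 N) 2)) f = χ t • f) ∧
      (∀ (ℓ : ℕ) (hℓ : ℓ.Prime) (hℓN : ¬ ℓ ∣ N) (hℓS : ℓ ∉ S),
        qCoeff ⇑f ℓ = χ (CuspForm.heckeAlgebra.T hℓ hℓN hℓS)) ∧
      (∀ (q : ℕ) (hq : q.Prime) (hqN : q ∣ N) (hqS : q ∉ S),
        qCoeff ⇑f q = χ (CuspForm.heckeAlgebra.U hq hqN hqS)) := by
  let i : ↥(CuspForm.heckeAlgebra N 2 S) →+* ↥(CuspForm.heckeAlgebra N 2 (∅ : Set ℕ)) :=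
    (Subalgebra.inclusion (CuspForm.heckeAlgebra_mono (Set.empty_subset S))).toRingHom
  let := i.toAlgebra
  have : Algebra.IsIntegral ↥(CuspForm.heckeAlgebra N 2 S)
      ↥(CuspForm.heckeAlgebra N 2 (∅ : Set ℕ)) := Algebra.IsIntegral.tower_top ℤ
  obtain ⟨ψ, hψ⟩ := exists_ringHom_extends (A := ↥(CuspForm.heckeAlgebra N 2 S))
    (B := ↥(CuspForm.heckeAlgebra N 2 (∅ : Set ℕ)))
    (Subalgebra.inclusion_injective _) χ
  have hψ' : ∀ t, ψ (i t) = χ t := fun t => RingHom.congr_fun hψ t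
  obtain ⟨f, hf, he, hT, hU⟩ := exists_normalizedEigenform_of_character ψ
  refine ⟨f, hf, fun t => ?_, fun ℓ hℓ hℓN hℓS => ?_, fun q hq hqN hqS => ?_⟩
  · rw [← hψ' t, ← he (i t)]
    rfl
  · rw [hT ℓ hℓ hℓN, ← hψ']
    rfl
  · rw [hU q hq hqN, ← hψ']
    rfl

/-- A point of the Hecke algebra in any domain of characteristic zero is, up to an embedding of
its image, the character of a normalised eigenform. -/
theorem exists_eigenform_of_point {S : Set ℕ} {R : Type*} [CommRing R] [IsDomain R] [CharZero R]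
    (χ : ↥(CuspForm.heckeAlgebra N 2 S) →+* R) :
    ∃ (f : CuspForm (Gamma0 N) 2) (χ' : ↥(CuspForm.heckeAlgebra N 2 S) →+* ℂ),
      f.IsNormalizedEigenform ∧ RingHom.ker χ' = RingHom.ker χ ∧
      (∀ t : ↥(CuspForm.heckeAlgebra N 2 S),
        (t : Module.End ℂ (CuspForm (Gamma0 N) 2)) f = χ' t • f) ∧
      (∀ (ℓ : ℕ) (hℓ : ℓ.Prime) (hℓN : ¬ ℓ ∣ N) (hℓS : ℓ ∉ S),
        qCoeff ⇑f ℓ = χ' (CuspForm.heckeAlgebra.T hℓ hℓN hℓS)) := by
  have : Module.Finite ℤ ↥(CuspForm.heckeAlgebra N 2 S) := heckeAlgebra_moduleFinite N 2 S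
  have : CharZero ↥χ.range :=
    charZero_of_injective_ringHom (algebraMap ℤ ↥χ.range).injective_int
  have : Algebra.IsIntegral ℤ ↥χ.range :=
    Algebra.IsIntegral.of_surjective χ.rangeRestrict.toIntAlgHom χ.rangeRestrict_surjective
  obtain ⟨j, -⟩ := exists_ringHom_extends (A := ℤ) (B := ↥χ.range)
    (algebraMap ℤ ↥χ.range).injective_int (Int.castRingHom ℂ)
  have hj : Function.Injective j := by
    rw [RingHom.injective_iff_ker_eq_bot]
    have := RingHom.ker_isPrime j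
    refine Ideal.eq_bot_of_comap_eq_bot (R := ℤ) ?_
    rw [RingHom.comap_ker]
    exact (RingHom.injective_iff_ker_eq_bot _).1 (RingHom.injective_int _)
  obtain ⟨f, hf, he, hT, -⟩ :=
    exists_normalizedEigenform_of_character_away (j.comp χ.rangeRestrict)
  refine ⟨f, j.comp χ.rangeRestrict, hf, ?_, he, hT⟩
  ext t
  rw [RingHom.mem_ker, RingHom.mem_ker, RingHom.comp_apply, map_eq_zero_iff j hj]
  exact ⟨fun h => congrArg Subtype.val h, fun h => Subtype.ext h⟩

end FermatLib.Modular.Newforms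

end
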