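import Fermat.Agent.Modular.Newforms.IntMatrixSlash
import Fermat.Agent.Basic.EigenformLift
import Fermat.Prelude.Thm_UpperHalfPlane_qExpansion_coeff_nat_mul

/-!
# Degeneracy maps `f(τ) ↦ f(dτ)` on weight two cusp forms
-/

set_option autoImplicit false

noncomputable section

open scoped MatrixGroups ModularForm Manifold
open CongruenceSubgroup UpperHalfPlane ModularFormClass
open Matrix.SpecialLinearGroup (mapGL)

namespace FermatLib.Modular.Newforms

local notation "M2Z" => Matrix (Fin 2) (Fin 2) ℤ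

variable {M N : ℕ} [NeZero M] [NeZero N]

theorem pos_of_mul_dvd {d : ℕ} (h : M * d ∣ N) : 0 < d :=
  Nat.pos_of_ne_zero <| by rintro rfl; simp [NeZero.ne N] at h

omit [NeZero M] [NeZero N] in
theorem diag_slash_invariant {k : ℤ} {d : ℕ} (hd : 0 < d) (h : M * d ∣ N)
    (f : CuspForm (Gamma0 M) k) (γ : GL (Fin 2) ℝ)
    (hγ : γ ∈ (Gamma0 N : Subgroup (GL (Fin 2) ℝ))) :
    (∑ _i : Unit, ⇑f ∣[k] intGL !![(d : ℤ), 0; 0, 1]) ∣[k] γ
      = ∑ _i : Unit, ⇑f ∣[k] intGL !![(d : ℤ), 0; 0, 1] := by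
  obtain ⟨g, hg, hgN, rfl⟩ := exists_eq_intGL_of_mem_Gamma0 hγ
  obtain ⟨e, he⟩ : ((M : ℤ) * d) ∣ g 1 0 := (by exact_mod_cast h : ((M : ℤ) * d) ∣ N).trans hgN
  let g' : M2Z := !![g 0 0, d * g 0 1; M * e, g 1 1]
  have hg' : g'.det = 1 := by
    rw [Matrix.det_fin_two, he] at hg
    simp only [g', Matrix.det_fin_two_of]
    linear_combination hg
  have hD : (!![(d : ℤ), 0; 0, 1] : M2Z).det ≠ 0 := by simp [Matrix.det_fin_two_of, hd.ne']
  have hmul : !![(d : ℤ), 0; 0, 1] * g = g' * !![(d : ℤ), 0; 0, 1] := by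
    ext i j
    fin_cases i <;> fin_cases j <;> simp [g', Matrix.mul_apply, Fin.sum_univ_two, he] <;> ring
  simp only [Fintype.sum_unique]
  rw [← SlashAction.slash_mul, ← intGL_mul hD (by rw [hg]; exact one_ne_zero), hmul,
    intGL_mul (by rw [hg']; exact one_ne_zero) hD, SlashAction.slash_mul,
    SlashInvariantFormClass.slash_action_eq f _ (intGL_mem_Gamma0 hg' (by simp [g']))]

/-- The degeneracy map `f(τ) ↦ f(dτ)` from level `M` to level `N`, for `M * d ∣ N`. -/
def levelRaise {d : ℕ} (h : M * d ∣ N) :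
    CuspForm (Gamma0 M) 2 →ₗ[ℂ] CuspForm (Gamma0 N) 2 :=
  slashSumLin (A := fun _ : Unit => !![(d : ℤ), 0; 0, 1])
    (fun _ => by simp [Matrix.det_fin_two_of, pos_of_mul_dvd h])
    (fun f γ hγ => diag_slash_invariant (pos_of_mul_dvd h) h f γ hγ) (d : ℂ)⁻¹

theorem levelRaise_apply_apply {d : ℕ} (h : M * d ∣ N) (f : CuspForm (Gamma0 M) 2) (τ : ℍ) :
    levelRaise h f τ = f (ModularForm.heckeDiagMatrix d • τ) := by
  have hd := pos_of_mul_dvd h
  have hd' : (d : ℂ) ≠ 0 := by exact_mod_cast hd.ne'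
  rw [levelRaise, coe_slashSumLin]
  simp only [Fintype.sum_unique, Pi.smul_apply, smul_eq_mul]
  rw [← heckeDiagMatrix_eq_intGL hd.ne', ModularForm.slash_heckeDiagMatrix_apply 2 hd.ne']
  norm_num
  field_simp

/-- The `q`-expansion of `f(dτ)`. -/
theorem qCoeff_levelRaise {d : ℕ} (h : M * d ∣ N) (f : CuspForm (Gamma0 M) 2) (n : ℕ) :
    qCoeff ⇑(levelRaise h f) n = if d ∣ n then qCoeff ⇑f (n / d) else 0 := by
  classical
  have hd := pos_of_mul_dvd h
  set g := levelRaise h f
  have hper := one_mem_strictPeriods_Gamma0 N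
  set c : ℕ → ℂ := fun m => if d ∣ m then qCoeff ⇑f (m / d) else 0 with hc
  have hsum : ∀ τ : ℍ, HasSum (fun m => c m • Function.Periodic.qParam 1 τ ^ m) (g τ) := by
    intro τ
    have hs := UpperHalfPlane.hasSum_qExpansion one_pos
      (SlashInvariantFormClass.periodic_comp_ofComplex f (one_mem_strictPeriods_Gamma0 M))
      (CuspFormClass.holo f) (ModularFormClass.bdd_at_infty f)
      (ModularForm.heckeDiagMatrix d • τ)
    have hq : Function.Periodic.qParam 1 ((ModularForm.heckeDiagMatrix d • τ : ℍ) : ℂ)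
        = Function.Periodic.qParam 1 τ ^ d := by
      rw [ModularForm.coe_heckeDiagMatrix_smul hd.ne', Function.Periodic.qParam,
        Function.Periodic.qParam, ← Complex.exp_nat_mul]
      congr 1
      push_cast
      ring
    simp_rw [hq, ← pow_mul] at hs
    have hinj : Function.Injective (fun m : ℕ => d * m) := mul_right_injective₀ hd.ne'
    have hsupp : ∀ x ∉ Set.range (fun m : ℕ => d * m),
        (fun m => c m • Function.Periodic.qParam 1 τ ^ m) x = 0 := by
      intro x hx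
      have : ¬ d ∣ x := by rintro ⟨e, rfl⟩; exact hx ⟨e, rfl⟩
      simp [hc, this]
    rw [levelRaise_apply_apply]
    refine (hinj.hasSum_iff hsupp).mp ?_
    convert hs using 1
    ext m
    simp [hc, qCoeff, Nat.mul_div_cancel_left _ hd]
  exact (ModularFormClass.qExpansion_coeff_unique one_pos hper hsum n).symm

/-- The inclusion `S₂(Γ₀(M)) → S₂(Γ₀(N))`. -/
theorem levelRaise_one_apply (h : M * 1 ∣ N) (f : CuspForm (Gamma0 M) 2) :
    ⇑(levelRaise h f) = ⇑f := by
  funext τ
  rw [levelRaise_apply_apply]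
  congr 1
  refine UpperHalfPlane.ext ?_
  rw [ModularForm.coe_heckeDiagMatrix_smul one_ne_zero]
  simp

end FermatLib.Modular.Newforms

end
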