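import Fermat.Agent.Modular.Newforms.Degeneracy
import Fermat.Agent.Galois.EigenformCharacter

/-!
# Eigensystems and normalised eigenforms
-/

set_option autoImplicit false

noncomputable section

open scoped MatrixGroups
open CongruenceSubgroup ModularFormClass

namespace FermatLib.Modular.Newforms

theorem finiteDimensional_cuspForm_Gamma0 (N : ℕ) [NeZero N] (k : ℤ) :
    FiniteDimensional ℂ (CuspForm (Gamma0 N) k) := by
  let B := (k * (Gamma0 N).index).toNat / 12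
  let φ : CuspForm (Gamma0 N) k →ₗ[ℂ] (Fin (B + 1) → ℂ) :=
    { toFun := fun f n => qCoeff ⇑f n
      map_add' := fun f g => funext fun n => FermatLib.Basic.qCoeff_cusp_add f g n
      map_smul' := fun c f => funext fun n => FermatLib.Basic.qCoeff_cusp_smul c f n }
  refine Module.Finite.of_injective φ ?_
  refine (injective_iff_map_eq_zero _).2 fun f hf => ?_
  have h : (ModularFormClass.modularForm f : ModularForm (Gamma0 N) k) = 0 :=
    ModularForm.sturm_bound_Gamma0 N _ fun n hn => by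
      simpa [φ, qCoeff] using congrFun hf ⟨n, Nat.lt_succ_of_le hn⟩
  have hcoe : (⇑f : UpperHalfPlane → ℂ) = 0 := by
    simpa using congrArg (fun F : ModularForm (Gamma0 N) k => (⇑F : UpperHalfPlane → ℂ)) h
  exact DFunLike.coe_injective (hcoe.trans FunLike.coe_zero.symm)

/-- A simultaneous eigenvector of some of the good Hecke operators gives a normalised eigenform
with the same eigenvalues. -/
theorem exists_normalizedEigenform_of_eigenvector {N : ℕ} [NeZero N] (D : Set ℕ) (c : ℕ → ℂ)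
    (v : CuspForm (Gamma0 N) 2) (hv : v ≠ 0)
    (h : ∀ (ℓ : ℕ) (hℓ : ℓ.Prime) (hℓN : ¬ ℓ ∣ N), ℓ ∉ D →
      CuspForm.heckeTLin 2 hℓ hℓN v = c ℓ • v) :
    ∃ g : CuspForm (Gamma0 N) 2, g.IsNormalizedEigenform ∧
      ∀ ℓ : ℕ, ℓ.Prime → ¬ ℓ ∣ N → ℓ ∉ D → qCoeff ⇑g ℓ = c ℓ := by
  haveI := finiteDimensional_cuspForm_Gamma0 N 2
  let V : Submodule ℂ (CuspForm (Gamma0 N) 2) :=
    { carrier := {x | ∀ (ℓ : ℕ) (hℓ : ℓ.Prime) (hℓN : ¬ ℓ ∣ N), ℓ ∉ D →
        CuspForm.heckeTLin 2 hℓ hℓN x = c ℓ • x}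
      zero_mem' := fun ℓ hℓ hℓN _ => by simp
      add_mem' := fun {x y} hx hy ℓ hℓ hℓN hD => by
        rw [map_add, hx ℓ hℓ hℓN hD, hy ℓ hℓ hℓN hD, smul_add]
      smul_mem' := fun r x hx ℓ hℓ hℓN hD => by rw [map_smul, hx ℓ hℓ hℓN hD, smul_comm] }
  have hstab : ∀ t : ↥(CuspForm.heckeAlgebra N 2 (∅ : Set ℕ)), ∀ x ∈ V,
      (t : Module.End ℂ (CuspForm (Gamma0 N) 2)) x ∈ V := by
    intro t x hx ℓ hℓ hℓN hD
    have hc := congrArg (fun a : ↥(CuspForm.heckeAlgebra N 2 (∅ : Set ℕ)) =>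
      (a : Module.End ℂ (CuspForm (Gamma0 N) 2)) x)
      (mul_comm (CuspForm.heckeAlgebra.T hℓ hℓN (Set.notMem_empty ℓ)) t)
    simp only [MulMemClass.coe_mul, Module.End.mul_apply, CuspForm.heckeAlgebra.coe_T] at hc
    rw [hc, hx ℓ hℓ hℓN hD, map_smul]
  let ρ : ↥(CuspForm.heckeAlgebra N 2 (∅ : Set ℕ)) →+* Module.End ℂ V :=
    { toFun := fun t => (t : Module.End ℂ (CuspForm (Gamma0 N) 2)).restrict (hstab t)
      map_one' := LinearMap.ext fun x => Subtype.ext (by simp)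
      map_mul' := fun s t => LinearMap.ext fun x => Subtype.ext (by simp [Module.End.mul_apply])
      map_zero' := LinearMap.ext fun x => Subtype.ext (by simp)
      map_add' := fun s t => LinearMap.ext fun x => Subtype.ext (by simp) }
  haveI : Nontrivial V := ⟨⟨⟨v, h⟩, 0, fun e => hv (congrArg Subtype.val e)⟩⟩
  obtain ⟨P, hP, hker⟩ := Ideal.exists_le_maximal (RingHom.ker ρ) (RingHom.ker_ne_top ρ)
  obtain ⟨w, χ, hw, heig, -⟩ := FermatLib.Basic.exists_eigenchar_ker_le ρ P hker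
  have heig' : ∀ t : ↥(CuspForm.heckeAlgebra N 2 (∅ : Set ℕ)),
      (t : Module.End ℂ (CuspForm (Gamma0 N) 2)) w = χ t • (w : CuspForm (Gamma0 N) 2) := fun t =>
    congrArg Subtype.val (heig t)
  have hw' : (w : CuspForm (Gamma0 N) 2) ≠ 0 := fun e => hw (Subtype.ext e)
  obtain ⟨g, hg, -, hT, -⟩ :=
    FermatLib.Basic.exists_normalizedEigenform_of_eigenchar _ hw' χ heig'
  refine ⟨g, hg, fun ℓ hℓ hℓN hD => ?_⟩
  rw [hT ℓ hℓ hℓN]
  refine smul_left_injective ℂ hw' ?_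
  show χ _ • (w : CuspForm (Gamma0 N) 2) = c ℓ • w
  rw [← heig', CuspForm.heckeAlgebra.coe_T]
  exact w.2 ℓ hℓ hℓN hD

end FermatLib.Modular.Newforms

end
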