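import Fermat.Agent.Modular.Newforms.LevelLower
import Fermat.Agent.Modular.Newforms.Degeneracy
import Fermat.Agent.Modular.Newforms.Eigenforms
import Fermat.Agent.Modular.LevelChangeEigen

/-!
# The coefficient at `q` of an eigenform with an eigensystem of level prime to `q`

A form of level `qM`, `q ∤ M`, whose coefficients vanish outside the multiples of `q` comes from
level `M`, and such a form of level `M` is zero.  Hence an eigenform of level `qM` whose good
eigensystem is that of an eigenform `g` of level dividing `M` has `a_q² - a_q(g) a_q + q = 0`.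
-/

set_option autoImplicit false
set_option linter.style.haveILetI false

noncomputable section

open scoped MatrixGroups ModularForm
open CongruenceSubgroup UpperHalfPlane ModularFormClass

namespace FermatLib.Modular.Newforms

local notation "M2Z" => Matrix (Fin 2) (Fin 2) ℤ

/-- A form of level `qM` supported on the multiples of `q` is `F(qτ)` with `F` of level `M`. -/
theorem exists_lower_of_supported {q M : ℕ} [NeZero M] (hq : q.Prime) (hqM : ¬ q ∣ M)
    (h : CuspForm (Gamma0 (q * M)) 2) (hs : ∀ n, ¬ q ∣ n → qCoeff ⇑h n = 0) :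
    ∃ F : CuspForm (Gamma0 M) 2, ∀ n, qCoeff ⇑F n = qCoeff ⇑h (n * q) := by
  haveI : NeZero q := ⟨hq.ne_zero⟩
  haveI : NeZero (q * M) := ⟨mul_ne_zero hq.ne_zero (NeZero.ne M)⟩
  haveI : NeZero (q * M * q) := ⟨mul_ne_zero (NeZero.ne _) hq.ne_zero⟩
  set F₀ := CuspForm.heckeULin 2 (dvd_mul_right q M) h with hF₀
  have hc₀ : ∀ n, qCoeff ⇑F₀ n = qCoeff ⇑h (n * q) :=
    FermatLib.Basic.qCoeff_heckeULin_apply hq _ h
  set D : M2Z := !![(q : ℤ), 0; 0, 1] with hD
  have hDdet : D.det ≠ 0 := by simp [hD, Matrix.det_fin_two_of, hq.ne_zero]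
  have hFD : ⇑F₀ ∣[(2 : ℤ)] intGL D = (q : ℂ) • ⇑h := by
    have he : levelRaise (dvd_refl (q * M * q)) F₀ =
        levelRaise (d := 1) (N := q * M * q) (by rw [mul_one]; exact dvd_mul_right _ _) h := by
      refine sub_eq_zero.1 (FermatLib.Basic.cusp_eq_zero_of_qCoeff_eq_zero _ fun n => ?_)
      rw [FermatLib.Basic.qCoeff_cusp_sub, qCoeff_levelRaise, qCoeff_levelRaise,
        if_pos (one_dvd n), Nat.div_one]
      split_ifs with hn
      · rw [hc₀, Nat.div_mul_cancel hn, sub_self]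
      · rw [hs n hn, sub_self]
    have h1 := congrArg DFunLike.coe he
    rw [levelRaise_one_apply, levelRaise, coe_slashSumLin, Fintype.sum_unique,
      inv_smul_eq_iff₀ (Nat.cast_ne_zero.2 hq.ne_zero)] at h1
    exact h1
  have hU : ∀ k : ℤ, ⇑F₀ ∣[(2 : ℤ)] intGL !![1, k; 0, 1] = ⇑F₀ := fun k =>
    SlashInvariantFormClass.slash_action_eq F₀ _
      (intGL_mem_Gamma0 (by simp [Matrix.det_fin_two_of]) (by simp))
  -- invariance under `Γ₀(M) ∩ Γ⁰(q)`
  have hupper : ∀ g : M2Z, g.det = 1 → (M : ℤ) ∣ g 1 0 → (q : ℤ) ∣ g 0 1 →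
      ⇑F₀ ∣[(2 : ℤ)] intGL g = ⇑F₀ := by
    intro g hg hgM hgq
    obtain ⟨b, hb⟩ := hgq
    let g' : M2Z := !![g 0 0, b; (q : ℤ) * g 1 0, g 1 1]
    have hg' : g'.det = 1 := by
      rw [Matrix.det_fin_two] at hg
      simp only [g', Matrix.det_fin_two_of]
      linear_combination hg + (g 1 0) * hb
    have hmul : g * D = D * g' := by
      ext i j
      fin_cases i <;> fin_cases j <;>
        simp [g', hD, Matrix.mul_apply, Fin.sum_univ_two, hb] <;> ring
    have hmem : intGL g' ∈ (Gamma0 (q * M) : Subgroup (GL (Fin 2) ℝ)) :=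
      intGL_mem_Gamma0 hg' (by simpa [g'] using mul_dvd_mul_left (q : ℤ) hgM)
    have h1 : (⇑F₀ ∣[(2 : ℤ)] intGL g) ∣[(2 : ℤ)] intGL D = ⇑F₀ ∣[(2 : ℤ)] intGL D := by
      rw [← SlashAction.slash_mul, ← intGL_mul (by rw [hg]; exact one_ne_zero) hDdet, hmul,
        intGL_mul hDdet (by rw [hg']; exact one_ne_zero), SlashAction.slash_mul, hFD,
        smul_slash_intGL (by rw [hg']; exact one_pos),
        SlashInvariantFormClass.slash_action_eq h _ hmem]
    have h2 := congrArg (fun φ : ℍ → ℂ => φ ∣[(2 : ℤ)] (intGL D)⁻¹) h1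
    simpa only [← SlashAction.slash_mul, mul_inv_cancel_right, mul_inv_cancel,
      SlashAction.slash_one] using h2
  have hinv₁ : ∀ g : M2Z, g.det = 1 → (M : ℤ) ∣ g 1 0 → ¬ (q : ℤ) ∣ g 0 0 →
      ⇑F₀ ∣[(2 : ℤ)] intGL g = ⇑F₀ := by
    intro g hg hgM ha
    haveI := Fact.mk hq
    set k : ℕ := (-(g 0 1 : ZMod q) / (g 0 0 : ZMod q)).val with hk
    let U : M2Z := !![1, (k : ℤ); 0, 1]
    have hUd : U.det = 1 := by simp [U, Matrix.det_fin_two_of]
    have h1 := hupper (g * U) (by rw [Matrix.det_mul, hg, hUd, one_mul])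
      (by simpa [U, Matrix.mul_apply, Fin.sum_univ_two] using hgM) (by
        have ha' : (g 0 0 : ZMod q) ≠ 0 := fun h0 =>
          ha ((ZMod.intCast_zmod_eq_zero_iff_dvd _ _).1 h0)
        rw [← ZMod.intCast_zmod_eq_zero_iff_dvd]
        simp only [U, Matrix.mul_apply, Fin.sum_univ_two, Matrix.of_apply, Matrix.cons_val',
          Matrix.cons_val_zero, Matrix.cons_val_one, Matrix.empty_val', Matrix.cons_val_fin_one,
          mul_one]
        push_cast
        rw [hk, ZMod.natCast_zmod_val, mul_div_cancel₀ _ ha', neg_add_cancel])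
    rw [intGL_mul (by rw [hg]; exact one_ne_zero) (by rw [hUd]; exact one_ne_zero),
      SlashAction.slash_mul] at h1
    have h2 := congrArg (fun φ : ℍ → ℂ => φ ∣[(2 : ℤ)] (intGL U)⁻¹) (h1.trans (hU k).symm)
    simpa only [U, ← SlashAction.slash_mul, mul_inv_cancel_right, mul_inv_cancel,
      SlashAction.slash_one] using h2
  have hinv : ∀ g : M2Z, g.det = 1 → (M : ℤ) ∣ g 1 0 → ⇑F₀ ∣[(2 : ℤ)] intGL g = ⇑F₀ := by
    intro g hg hgM
    by_cases ha : (q : ℤ) ∣ g 0 0
    · let U : M2Z := !![1, 1; 0, 1]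
      have hUd : U.det = 1 := by simp [U, Matrix.det_fin_two_of]
      have h1 := hinv₁ (U * g) (by rw [Matrix.det_mul, hg, hUd, one_mul])
        (by simpa [U, Matrix.mul_apply, Fin.sum_univ_two] using hgM) (fun hdvd => by
          simp [U, Matrix.mul_apply, Fin.sum_univ_two] at hdvd
          have hc : (q : ℤ) ∣ g 1 0 := (dvd_add_right ha).1 hdvd
          rw [Matrix.det_fin_two] at hg
          exact hq.not_dvd_one (Int.natCast_dvd_natCast.1
            (by simpa [hg] using Int.dvd_sub (ha.mul_right (g 1 1)) (hc.mul_left (g 0 1)))))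
      rwa [intGL_mul (by rw [hUd]; exact one_ne_zero) (by rw [hg]; exact one_ne_zero),
        SlashAction.slash_mul, hU 1] at h1
    · exact hinv₁ g hg hgM ha
  obtain ⟨L⟩ := exists_alData ((hq.coprime_iff_not_dvd).2 hqM)
  refine ⟨((q : ℂ) + 1)⁻¹ • traceDown L hq rfl (atkinLehner rfl L F₀), fun n => ?_⟩
  have hne : ((q : ℂ) + 1) ≠ 0 := by exact_mod_cast Nat.succ_ne_zero q
  have hG : ⇑(traceDown L hq rfl (atkinLehner rfl L F₀)) = ((q : ℂ) + 1) • ⇑F₀ := by
    have hW : L.mat.det ≠ 0 := by rw [L.det_mat]; exact_mod_cast hq.ne_zero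
    have hd : ∀ i, (traceRepMat L i).det ≠ 0 := fun i => by
      rw [det_traceRepMat]; exact one_ne_zero
    rw [traceDown, coe_slashSumLin, one_smul]
    simp only [traceMat_eq, intGL_mul hW (hd _), SlashAction.slash_mul]
    rw [← coe_atkinLehner rfl L, atkinLehner_atkinLehner]
    simp only [hinv _ (det_traceRepMat L _) (dvd_traceRepMat L _), Finset.sum_const,
      Finset.card_univ, Fintype.card_option, Fintype.card_fin]
    rw [← Nat.cast_smul_eq_nsmul ℂ, Nat.cast_add_one]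
  rw [← hc₀]
  refine congrArg (fun φ : ℍ → ℂ => qCoeff φ n) ?_
  rw [FunLike.coe_smul, hG, inv_smul_smul₀ hne]

/-- A form of level prime to `q` supported on the multiples of `q` is zero. -/
theorem eq_zero_of_supported {q M : ℕ} [NeZero M] (hq : q.Prime) (hqM : ¬ q ∣ M)
    (G : CuspForm (Gamma0 M) 2) (hs : ∀ n, ¬ q ∣ n → qCoeff ⇑G n = 0) : G = 0 := by
  classical
  haveI : NeZero q := ⟨hq.ne_zero⟩
  haveI : NeZero (q * M) := ⟨mul_ne_zero hq.ne_zero (NeZero.ne M)⟩
  haveI := finiteDimensional_cuspForm_Gamma0 M 2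
  have hdvd : M * 1 ∣ q * M := by rw [mul_one]; exact dvd_mul_left M q
  have hqC : (q : ℂ) ≠ 0 := Nat.cast_ne_zero.2 hq.ne_zero
  have ext_coeff : ∀ {A B : CuspForm (Gamma0 M) 2},
      (∀ n, qCoeff ⇑A n = qCoeff ⇑B n) → A = B := fun h =>
    sub_eq_zero.1 (FermatLib.Basic.cusp_eq_zero_of_qCoeff_eq_zero _ fun n => by
      rw [FermatLib.Basic.qCoeff_cusp_sub, h, sub_self])
  let W : Submodule ℂ (CuspForm (Gamma0 M) 2) :=
    { carrier := {A | ∀ n, ¬ q ∣ n → qCoeff ⇑A n = 0}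
      add_mem' := fun hA hB n hn => by
        rw [FermatLib.Basic.qCoeff_cusp_add, hA n hn, hB n hn, add_zero]
      zero_mem' := fun n _ => by rw [FunLike.coe_zero, qCoeff, qExpansion_zero, map_zero]
      smul_mem' := fun c A hA n hn => by
        rw [FermatLib.Basic.qCoeff_cusp_smul, hA n hn, mul_zero] }
  have hV : ∀ A : W, ∃ B : W, ∀ n, qCoeff ⇑B.1 n = if q ∣ n then qCoeff ⇑A.1 (n / q) else 0 := by
    rintro ⟨A, hA⟩
    obtain ⟨F, hF⟩ := exists_lower_of_supported hq hqM (levelRaise (N := q * M) hdvd A)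
      fun n hn => by rw [qCoeff_levelRaise, if_pos (one_dvd n), Nat.div_one, hA n hn]
    let B := (q : ℂ)⁻¹ • (CuspForm.heckeTLin 2 hq hqM A - F)
    have hB : ∀ n, qCoeff ⇑B n = if q ∣ n then qCoeff ⇑A (n / q) else 0 := fun n => by
      simp only [B, FermatLib.Basic.qCoeff_cusp_smul, FermatLib.Basic.qCoeff_cusp_sub,
        FermatLib.Basic.qCoeff_heckeTLin_two, hF, qCoeff_levelRaise, one_dvd, if_true,
        Nat.div_one]
      split_ifs <;> field_simp <;> ring
    exact ⟨⟨B, fun n hn => by rw [hB, if_neg hn]⟩, hB⟩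
  choose V hV using hV
  let VL : W →ₗ[ℂ] W :=
    { toFun := V
      map_add' := fun A B => Subtype.ext (ext_coeff fun n => by
        rw [Submodule.coe_add, hV, FermatLib.Basic.qCoeff_cusp_add, hV, hV]
        split_ifs
        · rw [Submodule.coe_add, FermatLib.Basic.qCoeff_cusp_add]
        · rw [add_zero])
      map_smul' := fun c A => Subtype.ext (ext_coeff fun n => by
        rw [RingHom.id_apply, Submodule.coe_smul, hV, FermatLib.Basic.qCoeff_cusp_smul, hV]
        split_ifs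
        · rw [Submodule.coe_smul, FermatLib.Basic.qCoeff_cusp_smul]
        · rw [mul_zero]) }
  have hinj : Function.Injective VL := fun A B h => Subtype.ext (ext_coeff fun n => by
    have h' := congrArg (fun C : W => qCoeff ⇑C.1 (q * n)) h
    simpa [VL, hV, hq.pos] using h')
  have hsurj : Function.Surjective VL := LinearMap.injective_iff_surjective.1 hinj
  have key : ∀ k (A : W) n, ¬ q ^ k ∣ n → qCoeff ⇑A.1 n = 0 := by
    intro k
    induction k with
    | zero => intro A n hn; exact absurd (one_dvd n) (by simpa using hn)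
    | succ k ih =>
      intro A n hn
      obtain ⟨B, rfl⟩ := hsurj A
      show qCoeff ⇑(V B).1 n = 0
      rw [hV]
      split_ifs with hqn
      · refine ih B _ fun hd => hn ?_
        rw [pow_succ', ← Nat.mul_div_cancel' hqn]
        exact mul_dvd_mul_left q hd
      · rfl
  refine ext_coeff fun n => ?_
  rw [FunLike.coe_zero, show qCoeff (0 : ℍ → ℂ) n = 0 by rw [qCoeff, qExpansion_zero, map_zero]]
  rcases Nat.eq_zero_or_pos n with rfl | hn
  · exact FermatLib.Basic.qCoeff_cusp_zero_index G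
  · exact key n ⟨G, hs⟩ n fun hd =>
      absurd (Nat.le_of_dvd hn hd) (not_le.2 (Nat.lt_pow_self hq.one_lt))

/-- An eigenform becomes one with vanishing coefficients at chosen primes of its level. -/
theorem exists_eigenform_depleted {N : ℕ} [NeZero N] {f : CuspForm (Gamma0 N) 2}
    (hf : f.IsNormalizedEigenform) (R : Finset ℕ) (hR : ∀ r ∈ R, r.Prime ∧ r ∣ N) :
    ∀ N' : ℕ, N' = N * ∏ r ∈ R, r → ∃ g : CuspForm (Gamma0 N') 2, g.IsNormalizedEigenform ∧
      ∀ ℓ : ℕ, ℓ.Prime → qCoeff ⇑g ℓ = if ℓ ∈ R then 0 else qCoeff ⇑f ℓ := by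
  classical
  induction R using Finset.induction_on with
  | empty =>
    rintro N' rfl
    rw [Finset.prod_empty, mul_one]
    exact ⟨f, hf, fun ℓ _ => by simp⟩
  | @insert a s ha ih =>
    rintro N' rfl
    obtain ⟨g, hg, hgc⟩ := ih (fun r hr => hR r (Finset.mem_insert_of_mem hr)) _ rfl
    obtain ⟨hap, haN⟩ := hR a (Finset.mem_insert_self a s)
    haveI : NeZero (N * ∏ r ∈ s, r) := ⟨mul_ne_zero (NeZero.ne N) (Finset.prod_ne_zero_iff.2
      fun r hr => (hR r (Finset.mem_insert_of_mem hr)).1.ne_zero)⟩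
    obtain ⟨g', hg', hga, hgn⟩ :=
      exists_eigenform_stabilisation_of_dvd hg hap (haN.mul_right _) (α := 0) (Or.inr rfl)
    rw [show N * ∏ r ∈ insert a s, r = N * (∏ r ∈ s, r) * a by
      rw [Finset.prod_insert ha]; ring]
    refine ⟨g', hg', fun ℓ hℓ => ?_⟩
    by_cases h : ℓ = a
    · subst h
      rw [hga, if_pos (Finset.mem_insert_self ℓ s)]
    · rw [hgn ℓ (fun hd => h ((Nat.prime_dvd_prime_iff_eq hap hℓ).1 hd).symm), hgc ℓ hℓ]
      simp [h]

/-- **The coefficient at `q`.** An eigenform of level `qM`, `q ∤ M`, with the good eigensystem of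
an eigenform `g` of level dividing `M` has a root of `X² - a_q(g) X + q` as its coefficient at
`q`. -/
theorem qCoeff_root_of_lower {q M M' : ℕ} [NeZero M] [NeZero M'] (hq : q.Prime) (hqM : ¬ q ∣ M)
    (hM' : M' ∣ M) {f : CuspForm (Gamma0 (q * M)) 2} (hf : f.IsNormalizedEigenform)
    {g : CuspForm (Gamma0 M') 2} (hg : g.IsNormalizedEigenform)
    (hgf : ∀ ℓ : ℕ, ℓ.Prime → ¬ ℓ ∣ q * M → qCoeff ⇑g ℓ = qCoeff ⇑f ℓ) :
    qCoeff ⇑f q ^ 2 - qCoeff ⇑g q * qCoeff ⇑f q + q = 0 := by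
  classical
  haveI : NeZero (q * M) := ⟨mul_ne_zero hq.ne_zero (NeZero.ne M)⟩
  obtain ⟨g₀, hg₀, hg₀c⟩ := exists_eigenform_of_dvd (NeZero.ne M) hM' hg
  set R := M.primeFactors with hR
  have hRmem : ∀ r ∈ R, r.Prime ∧ r ∣ M := fun r hr =>
    ⟨Nat.prime_of_mem_primeFactors hr, Nat.dvd_of_mem_primeFactors hr⟩
  set M'' := M * ∏ r ∈ R, r with hM''
  obtain ⟨g₁, hg₁, hg₁c⟩ := exists_eigenform_depleted hg₀ R hRmem M'' rfl
  obtain ⟨f₁, hf₁, hf₁c⟩ := exists_eigenform_depleted hf R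
    (fun r hr => ⟨(hRmem r hr).1, (hRmem r hr).2.mul_left q⟩) (q * M'') (mul_assoc _ _ _).symm
  have hqR : q ∉ R := fun h => hqM (hRmem q h).2
  have hqM'' : ¬ q ∣ M'' := fun h => by
    rcases hq.dvd_mul.1 h with h | h
    · exact hqM h
    · obtain ⟨r, hr, hd⟩ := (hq.prime.dvd_finsetProd_iff _).1 h
      exact hqR ((Nat.prime_dvd_prime_iff_eq hq (hRmem r hr).1).1 hd ▸ hr)
  haveI : NeZero M'' :=
    ⟨mul_ne_zero (NeZero.ne M) (Finset.prod_ne_zero_iff.2 fun r hr => (hRmem r hr).1.ne_zero)⟩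
  haveI : NeZero (q * M'') := ⟨mul_ne_zero hq.ne_zero (NeZero.ne M'')⟩
  set u := qCoeff ⇑f q with hu
  set a := qCoeff ⇑g q with ha
  have hfq : qCoeff ⇑f₁ q = u := by rw [hf₁c q hq, if_neg hqR]
  have hgq : qCoeff ⇑g₁ q = a := by
    rw [hg₁c q hq, if_neg hqR, hg₀c q hq (Or.inr hqM)]
  have heq : ∀ n, ¬ q ∣ n → qCoeff ⇑f₁ n = qCoeff ⇑g₁ n := by
    intro n
    induction n using Nat.recOnPosPrimePosCoprime with
    | zero => intro h; exact absurd (dvd_zero q) h
    | one => intro _; rw [hf₁.qCoeff_one, hg₁.qCoeff_one]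
    | coprime x y _ _ hxy hx hy =>
      intro h
      rw [hf₁.qCoeff_mul_of_coprime x y hxy, hg₁.qCoeff_mul_of_coprime x y hxy,
        hx fun hd => h (hd.mul_right y), hy fun hd => h (hd.mul_left x)]
    | prime_pow p k hp hk =>
      intro h
      have hpq : p ≠ q := fun e => h (e ▸ dvd_pow_self p hk.ne')
      have hp1 : qCoeff ⇑f₁ p = qCoeff ⇑g₁ p := by
        rw [hf₁c p hp, hg₁c p hp]
        by_cases hpR : p ∈ R
        · rw [if_pos hpR, if_pos hpR]
        · have hpM : ¬ p ∣ M := fun hd => hpR (Nat.mem_primeFactors.2 ⟨hp, hd, NeZero.ne M⟩)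
          have hpqM : ¬ p ∣ q * M := fun hd => (hp.dvd_mul.1 hd).elim
            (fun h' => hpq ((Nat.prime_dvd_prime_iff_eq hp hq).1 h')) hpM
          rw [if_neg hpR, if_neg hpR, hg₀c p hp (Or.inr hpM), hgf p hp hpqM]
      have hiff : p ∣ q * M'' ↔ p ∣ M'' := ⟨fun hd => (hp.dvd_mul.1 hd).resolve_left
        fun h' => hpq ((Nat.prime_dvd_prime_iff_eq hp hq).1 h'), fun hd => hd.mul_left q⟩
      suffices ∀ j, qCoeff ⇑f₁ (p ^ j) = qCoeff ⇑g₁ (p ^ j) ∧
          qCoeff ⇑f₁ (p ^ (j + 1)) = qCoeff ⇑g₁ (p ^ (j + 1)) from (this k).1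
      intro j
      induction j with
      | zero => rw [pow_zero, hf₁.qCoeff_one, hg₁.qCoeff_one, pow_one]; exact ⟨rfl, hp1⟩
      | succ j ih =>
        refine ⟨ih.2, ?_⟩
        by_cases hd : p ∣ M''
        · rw [hf₁.qCoeff_prime_pow_of_dvd p j hp (hiff.2 hd),
            hg₁.qCoeff_prime_pow_of_dvd p j hp hd, hp1, ih.2]
        · rw [hf₁.qCoeff_prime_pow_of_not_dvd p j hp (mt hiff.1 hd),
            hg₁.qCoeff_prime_pow_of_not_dvd p j hp hd, hp1, ih.1, ih.2]
  have hdvd : M'' * 1 ∣ q * M'' := by rw [mul_one]; exact dvd_mul_left M'' q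
  obtain ⟨F, hF⟩ := exists_lower_of_supported hq hqM'' (f₁ - levelRaise hdvd g₁) fun n hn => by
    rw [FermatLib.Basic.qCoeff_cusp_sub, qCoeff_levelRaise, if_pos (one_dvd n), Nat.div_one,
      heq n hn, sub_self]
  simp only [FermatLib.Basic.qCoeff_cusp_sub, qCoeff_levelRaise, one_dvd, if_true,
    Nat.div_one] at hF
  have hG : F - (u - a) • g₁ = 0 := eq_zero_of_supported hq hqM'' _ fun n hn => by
    have hcop : n.Coprime q := ((hq.coprime_iff_not_dvd).2 hn).symm
    rw [FermatLib.Basic.qCoeff_cusp_sub, FermatLib.Basic.qCoeff_cusp_smul, hF,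
      hf₁.qCoeff_mul_of_coprime n q hcop, hg₁.qCoeff_mul_of_coprime n q hcop, hfq, hgq, heq n hn]
    ring
  have h2 := congrArg (fun A : CuspForm (Gamma0 M'') 2 => qCoeff ⇑A q) (sub_eq_zero.1 hG)
  simp only [FermatLib.Basic.qCoeff_cusp_smul, hF, hgq] at h2
  have e1 := hf₁.qCoeff_prime_pow_of_dvd q 0 hq (dvd_mul_right q M'')
  have e2 := hg₁.qCoeff_prime_pow_of_not_dvd q 0 hq hqM''
  rw [zero_add, pow_one, hfq] at e1
  rw [zero_add, pow_one, pow_zero, hgq, hg₁.qCoeff_one, mul_one] at e2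
  rw [← sq, e1, e2] at h2
  linear_combination h2

end FermatLib.Modular.Newforms

end
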