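import Fermat.Agent.Modular.Newforms.AtkinLehner
import Fermat.Prelude.Thm_CuspForm_heckeTLin_heckeULin_comm

/-!
# Lowering the level: `U q` when `q² ∣ N`, the trace `f ↦ f ∣ W + U q f` when `q` exactly divides `N`
-/

set_option autoImplicit false

noncomputable section

open scoped MatrixGroups ModularForm
open CongruenceSubgroup UpperHalfPlane

namespace FermatLib.Modular.Newforms

local notation "M2Z" => Matrix (Fin 2) (Fin 2) ℤ

variable {q M N : ℕ} [NeZero M] [NeZero N]

section Trace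

variable (L : ALData q M)

/-- Representatives of `Γ₀(qM) \ Γ₀(M)`. -/
def traceRepMat : Option (Fin q) → M2Z
  | some j => !![L.w, L.w * ((j : ℕ) : ℤ) - L.x; -((M : ℤ) * L.z),
      -((M : ℤ) * L.z * ((j : ℕ) : ℤ)) + (q : ℤ) * L.α]
  | none => 1

omit [NeZero M] [NeZero N] in
theorem det_traceRepMat (i : Option (Fin q)) : (traceRepMat L i).det = 1 := by
  cases i with
  | none => simp [traceRepMat]
  | some j =>
    simp only [traceRepMat, Matrix.det_fin_two_of]
    linear_combination L.eq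

omit [NeZero M] [NeZero N] in
theorem dvd_traceRepMat (i : Option (Fin q)) : (M : ℤ) ∣ traceRepMat L i 1 0 := by
  cases i <;> simp [traceRepMat]

omit [NeZero M] [NeZero N] in
theorem mat_mul_traceRepMat (j : Fin q) :
    L.mat * traceRepMat L (some j) = heckeRepMat q (some j) := by
  ext a b
  fin_cases a <;> fin_cases b <;>
    simp [traceRepMat, heckeRepMat, ALData.mat, Matrix.mul_apply, Fin.sum_univ_two]
  · linear_combination L.eq
  · linear_combination ((j : ℕ) : ℤ) * L.eq
  · ring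
  · linear_combination (q : ℤ) * L.eq

omit [NeZero M] [NeZero N] in
theorem exists_traceRep (hq : q.Prime) {g : M2Z} (hg : g.det = 1) (hM : (M : ℤ) ∣ g 1 0) :
    ∃ (i : Option (Fin q)) (g' : M2Z), g'.det = 1 ∧ ((q * M : ℕ) : ℤ) ∣ g' 1 0 ∧
      g = g' * traceRepMat L i := by
  haveI := Fact.mk hq
  obtain ⟨c, hc⟩ := hM
  by_cases hqc : (q : ℤ) ∣ c
  · refine ⟨none, g, hg, ?_, by simp [traceRepMat]⟩
    rw [hc, Nat.cast_mul, mul_comm (q : ℤ)]
    exact mul_dvd_mul_left _ hqc
  · have hcM : (M : ZMod q) * (c : ZMod q) ≠ 0 := by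
      refine mul_ne_zero (fun hM0 => ?_) fun hc0 => hqc
        ((ZMod.intCast_zmod_eq_zero_iff_dvd _ _).1 hc0)
      have := congrArg (Int.cast : ℤ → ZMod q) L.eq
      push_cast at this
      simp [hM0] at this
    set t : ZMod q := (g 1 1 : ZMod q) / ((M : ZMod q) * c)
    obtain ⟨u, hu⟩ : (q : ℤ) ∣
        c * (-((M : ℤ) * L.z * t.val) + (q : ℤ) * L.α) + g 1 1 * L.z := by
      rw [← ZMod.intCast_zmod_eq_zero_iff_dvd]
      push_cast
      rw [ZMod.natCast_zmod_val]
      have ht : (M : ZMod q) * c * t = g 1 1 := mul_div_cancel₀ _ hcM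
      simp only [ZMod.natCast_self]
      linear_combination -(L.z : ZMod q) * ht
    set δ := traceRepMat L (some ⟨t.val, t.val_lt⟩) with hδ
    refine ⟨some ⟨t.val, t.val_lt⟩, g * δ.adjugate, ?_, ⟨u, ?_⟩, ?_⟩
    · rw [Matrix.det_mul, Matrix.det_adjugate, hg, det_traceRepMat]
      simp
    · simp [-ZMod.natCast_val, hδ, traceRepMat, Matrix.adjugate_fin_two_of, Matrix.mul_apply,
        Fin.sum_univ_two, hc]
      linear_combination (M : ℤ) * hu
    · rw [← hδ, Matrix.mul_assoc, Matrix.adjugate_mul, hδ, det_traceRepMat, one_smul, mul_one]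

omit [NeZero M] [NeZero N] in
theorem traceRep_injective (hq : q.Prime) {g : M2Z} (hN : ((q * M : ℕ) : ℤ) ∣ g 1 0)
    {i i' : Option (Fin q)} (h : traceRepMat L i = g * traceRepMat L i') (hM : M ≠ 0) :
    i = i' := by
  haveI := Fact.mk hq
  have hg : g = traceRepMat L i * (traceRepMat L i').adjugate := by
    rw [h, Matrix.mul_assoc, Matrix.mul_adjugate, det_traceRepMat, one_smul, mul_one]
  obtain ⟨u, hu⟩ := hN
  rw [hg] at hu
  have hM' : (M : ℤ) ≠ 0 := Int.natCast_ne_zero.2 hM
  have heq := congrArg (Int.cast : ℤ → ZMod q) L.eq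
  push_cast at heq
  simp only [ZMod.natCast_self, zero_mul, zero_sub] at heq
  have hz : (L.z : ZMod q) ≠ 0 := fun hz => by simp [hz] at heq
  have hMq : (M : ZMod q) ≠ 0 := fun hz => by simp [hz] at heq
  rcases i with _ | j <;> rcases i' with _ | j' <;>
    simp [traceRepMat, Matrix.adjugate_fin_two_of, Matrix.mul_apply, Fin.sum_univ_two] at hu
  · rfl
  · have h1 : L.z = (q : ℤ) * u := mul_left_cancel₀ hM' (by linear_combination hu)
    exact absurd (by rw [h1]; simp) hz
  · have h1 : -L.z = (q : ℤ) * u := mul_left_cancel₀ hM' (by linear_combination hu)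
    exact absurd (by rw [← neg_neg L.z, h1]; simp) hz
  · have h1 : (M : ℤ) * L.z * L.z * (((j' : ℕ) : ℤ) - ((j : ℕ) : ℤ)) = (q : ℤ) * u :=
      mul_left_cancel₀ hM' (by linear_combination hu)
    have h2 := congrArg (Int.cast : ℤ → ZMod q) h1
    push_cast at h2
    simp only [ZMod.natCast_self, zero_mul, mul_eq_zero, hMq, hz, false_or, sub_eq_zero] at h2
    have h3 := congrArg ZMod.val h2
    rw [ZMod.val_cast_of_lt j'.2, ZMod.val_cast_of_lt j.2] at h3
    exact congrArg some (Fin.ext h3.symm)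

/-- The family of matrices defining the trace of `f ∣ W`. -/
def traceMat : Option (Fin q) → M2Z
  | some j => heckeRepMat q (some j)
  | none => L.mat

omit [NeZero M] [NeZero N] in
theorem traceMat_eq (i : Option (Fin q)) : traceMat L i = L.mat * traceRepMat L i := by
  cases i with
  | none => simp [traceMat, traceRepMat]
  | some j => rw [mat_mul_traceRepMat]; rfl

theorem traceDown_invariant (hq : q.Prime) (hN : q * M = N) (f : CuspForm (Gamma0 N) 2)
    (γ : GL (Fin 2) ℝ) (hγ : γ ∈ (Gamma0 M : Subgroup (GL (Fin 2) ℝ))) :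
    (∑ i, ⇑f ∣[(2 : ℤ)] intGL (traceMat L i)) ∣[(2 : ℤ)] γ
      = ∑ i, ⇑f ∣[(2 : ℤ)] intGL (traceMat L i) := by
  obtain ⟨g, hg, hgM, rfl⟩ := exists_eq_intGL_of_mem_Gamma0 hγ
  have hW : L.mat.det ≠ 0 := by rw [L.det_mat]; exact_mod_cast hq.ne_zero
  have h1 : ∀ i, (traceRepMat L i).det ≠ 0 := fun i => by
    rw [det_traceRepMat]; exact one_ne_zero
  have hg0 : g.det ≠ 0 := by rw [hg]; exact one_ne_zero
  simp only [traceMat_eq, intGL_mul hW (h1 _), SlashAction.slash_mul]
  rw [← coe_atkinLehner hN L f, SlashAction.sum_slash]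
  simp_rw [← SlashAction.slash_mul]
  refine sum_slash_eq_of_cosets 2 (Gamma0 N : Subgroup (GL (Fin 2) ℝ))
    (fun γ hγ => SlashInvariantFormClass.slash_action_eq (atkinLehner hN L f) γ hγ) _ _
    (fun i => ?_) fun i i' hii => ?_
  · obtain ⟨j, g', hg', hg'N, he⟩ := exists_traceRep L hq (g := traceRepMat L i * g)
      (by rw [Matrix.det_mul, det_traceRepMat, hg, one_mul]) <| by
        rw [Matrix.mul_apply, Fin.sum_univ_two]
        exact dvd_add ((dvd_traceRepMat L i).mul_right _) (hgM.mul_left _)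
    refine ⟨j, ?_⟩
    rw [← intGL_mul (h1 i) hg0, he, intGL_mul (by rw [hg']; exact one_ne_zero) (h1 j),
      mul_inv_cancel_right]
    exact intGL_mem_Gamma0 hg' (hN ▸ hg'N)
  · rw [mul_inv_rev, mul_assoc, mul_inv_cancel_left] at hii
    obtain ⟨g', hg', hg'N, he⟩ := exists_eq_intGL_of_mem_Gamma0 hii
    rw [mul_inv_eq_iff_eq_mul, ← intGL_mul (by rw [hg']; exact one_ne_zero) (h1 i')] at he
    exact traceRep_injective L hq (hN.symm ▸ hg'N) (intGL_injective (h1 i)
      (by rw [Matrix.det_mul, hg', one_mul]; exact h1 i') he) (NeZero.ne M)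

/-- The trace from level `qM` to level `M` of `f ∣ W`, i.e. `f ↦ f ∣ W + U q f`. -/
def traceDown (hq : q.Prime) (hN : q * M = N) :
    CuspForm (Gamma0 N) 2 →ₗ[ℂ] CuspForm (Gamma0 M) 2 :=
  slashSumLin (A := traceMat L)
    (fun i => by
      cases i with
      | none => simp [traceMat, L.det_mat, hq.pos]
      | some j => exact det_heckeRepMat_pos hq.ne_zero (some j))
    (traceDown_invariant L hq hN) 1

theorem coe_traceDown (hq : q.Prime) (hN : q * M = N) (f : CuspForm (Gamma0 N) 2) :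
    ⇑(traceDown L hq hN f) = ⇑(atkinLehner hN L f) + ModularForm.heckeU 2 q ⇑f := by
  rw [traceDown, coe_slashSumLin, one_smul, Fintype.sum_option, coe_atkinLehner,
    heckeU_eq_sum hq.ne_zero]
  rfl

/-- The lowered forms commute with the Hecke operators prime to the level. -/
theorem heckeTLin_traceDown (hq : q.Prime) (hN : q * M = N) {ℓ : ℕ} (hℓ : ℓ.Prime)
    (hℓN : ¬ ℓ ∣ N) (f : CuspForm (Gamma0 N) 2) :
    CuspForm.heckeTLin 2 hℓ (fun h => hℓN (h.trans (hN ▸ dvd_mul_left M q))) (traceDown L hq hN f)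
      = traceDown L hq hN (CuspForm.heckeTLin 2 hℓ hℓN f) := by
  refine DFunLike.coe_injective ?_
  have hqN : q ∣ N := hN ▸ dvd_mul_right q M
  have h := congrArg (fun φ : Module.End ℂ (CuspForm (Gamma0 N) 2) => ⇑(φ f))
    (CuspForm.heckeTLin_heckeULin_comm 2 hℓ hℓN hqN).eq
  simp only [Module.End.mul_apply, CuspForm.coe_heckeTLin_apply,
    CuspForm.coe_heckeULin_apply] at h
  simp only [CuspForm.coe_heckeTLin_apply, coe_traceDown, ModularForm.heckeT_add,
    ← heckeTLin_atkinLehner hN L hℓ hℓN, h]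

end Trace

end FermatLib.Modular.Newforms

end
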