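import Fermat.Agent.Modular.Newforms.Eigenforms
import Fermat.Agent.Modular.Newforms.LevelLower
import Fermat.Prelude.Def_CuspForm_Newforms

/-!
# Newforms: existence, and the coefficients at primes dividing the level
-/

set_option autoImplicit false

noncomputable section

open scoped MatrixGroups
open CongruenceSubgroup ModularFormClass

namespace FermatLib.Modular.Newforms

variable {N M : ℕ} [NeZero N]

/-- A nonzero form of level `M ∣ N` with the eigenvalues of `f` away from `N` shows that the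
eigensystem of `f` occurs at level `M`. -/
theorem goodEigensystemOccursAt_of_ne_zero [NeZero M] (hMN : M ∣ N) {f : CuspForm (Gamma0 N) 2}
    (v : CuspForm (Gamma0 M) 2) (hv : v ≠ 0)
    (h : ∀ (ℓ : ℕ) (hℓ : ℓ.Prime) (hℓN : ¬ ℓ ∣ N),
      CuspForm.heckeTLin 2 hℓ (fun hd => hℓN (hd.trans hMN)) v = qCoeff ⇑f ℓ • v) :
    CuspForm.GoodEigensystemOccursAt f M := by
  obtain ⟨g, hg, hgl⟩ := exists_normalizedEigenform_of_eigenvector {ℓ | ℓ ∣ N}
    (fun ℓ => qCoeff ⇑f ℓ) v hv fun ℓ hℓ hℓM hℓN => h ℓ hℓ hℓN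
  exact ⟨g, hg, fun ℓ hℓ hℓN => hgl ℓ hℓ (fun hd => hℓN (hd.trans hMN)) hℓN⟩

/-- At a prime exactly dividing the level, a form new at `q` has `U q = - W q`. -/
theorem atkinLehner_eq_neg_of_isNewformAt [NeZero M] {q : ℕ} (hq : q.Prime) (hN : q * M = N)
    (L : ALData q M) {f : CuspForm (Gamma0 N) 2} (hf : f.IsNewformAt q) :
    atkinLehner hN L f = -(qCoeff ⇑f q • f) := by
  have hqN : q ∣ N := hN ▸ dvd_mul_right q M
  have hM : N / q = M := by rw [← hN, Nat.mul_div_cancel_left _ hq.pos]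
  have h0 : traceDown L hq hN f = 0 := by
    by_contra hne
    refine hf.2.2 (hM ▸ goodEigensystemOccursAt_of_ne_zero (hN ▸ dvd_mul_left M q) _ hne ?_)
    intro ℓ hℓ hℓN
    rw [heckeTLin_traceDown L hq hN hℓ hℓN, FermatLib.Galois.heckeTLin_apply_eigenform hf.1 hℓ,
      map_smul]
  refine eq_neg_of_add_eq_zero_left (DFunLike.coe_injective ?_)
  have h := coe_traceDown L hq hN f
  rw [h0, FunLike.coe_zero] at h
  rw [FunLike.coe_add, ← FermatLib.Galois.heckeULin_apply_eigenform hf.1 hq hqN,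
    CuspForm.coe_heckeULin_apply, ← h, FunLike.coe_zero]

/-- A form new at a prime `q` exactly dividing the level has `a_q² = 1`. -/
theorem qCoeff_sq_eq_one_of_isNewformAt {q : ℕ} (hq : q.Prime) {f : CuspForm (Gamma0 N) 2}
    (hf : f.IsNewformAt q) (hq2 : ¬ q ^ 2 ∣ N) : qCoeff ⇑f q ^ 2 = 1 := by
  obtain ⟨-, ⟨M, rfl⟩, -⟩ := id hf
  haveI : NeZero M := ⟨fun h => NeZero.ne (q * M) (by simp [h])⟩
  obtain ⟨L⟩ := exists_alData (q := q) (M := M) ((hq.coprime_iff_not_dvd).2 fun hd => hq2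
    (by rw [sq]; exact mul_dvd_mul_left q hd))
  have h := atkinLehner_eq_neg_of_isNewformAt hq rfl L hf
  have h2 : atkinLehner rfl L (atkinLehner rfl L f) = f := atkinLehner_atkinLehner rfl L f
  rw [h, map_neg, map_smul, h, smul_neg, neg_neg, smul_smul] at h2
  have h3 := congrArg (fun x : CuspForm (Gamma0 (q * M)) 2 => qCoeff ⇑x 1) h2
  simp only [FermatLib.Basic.qCoeff_cusp_smul, hf.1.qCoeff_one, mul_one] at h3
  rw [sq, h3]

end FermatLib.Modular.Newforms

end
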