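import Fermat.Agent.Modular.Newforms.HeckeReps

/-!
# Atkin–Lehner operators on weight two cusp forms

`N = q * M`; the operator is slash by `(q α, x; N z, q w)` of determinant `q`.
-/

set_option autoImplicit false

noncomputable section

open scoped MatrixGroups ModularForm
open CongruenceSubgroup UpperHalfPlane

namespace FermatLib.Modular.Newforms

local notation "M2Z" => Matrix (Fin 2) (Fin 2) ℤ

/-- Integers defining an Atkin–Lehner matrix for `q` at level `q * M`. -/
structure ALData (q M : ℕ) where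
  α : ℤ
  x : ℤ
  z : ℤ
  w : ℤ
  eq : (q : ℤ) * α * w - (M : ℤ) * z * x = 1

namespace ALData

variable {q M : ℕ} (L : ALData q M)

def mat : M2Z := !![(q : ℤ) * L.α, L.x; (q : ℤ) * M * L.z, (q : ℤ) * L.w]

/-- The adjugate is again an Atkin–Lehner matrix. -/
def adj : ALData q M := ⟨L.w, -L.x, -L.z, L.α, by linear_combination L.eq⟩

theorem det_mat : L.mat.det = q := by
  simp only [mat, Matrix.det_fin_two_of]
  linear_combination (q : ℤ) * L.eq

theorem mat_mul_adj : L.mat * L.adj.mat = !![(q : ℤ), 0; 0, q] := by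
  ext i j
  fin_cases i <;> fin_cases j <;> simp [mat, adj, Matrix.mul_apply, Fin.sum_univ_two]
  · linear_combination (q : ℤ) * L.eq
  · ring
  · ring
  · linear_combination (q : ℤ) * L.eq

theorem exists_conj (hq : q ≠ 0) {A : M2Z} (hA : ((q * M : ℕ) : ℤ) ∣ A 1 0) :
    ∃ X : M2Z, X.det = A.det ∧ ((q * M : ℕ) : ℤ) ∣ X 1 0 ∧ L.mat * A = X * L.mat := by
  obtain ⟨c, hc⟩ := hA
  push_cast at hc ⊢
  set a := A 0 0 with ha
  set b := A 0 1 with hb
  set d := A 1 1 with hd
  refine ⟨!![((q : ℤ) * L.α * a + L.x * ((q : ℤ) * M * c)) * L.w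
        - ((q : ℤ) * L.α * b + L.x * d) * M * L.z,
      -((L.α * a + L.x * M * c) * L.x) + L.α * ((q : ℤ) * L.α * b + L.x * d);
      (q : ℤ) * M * ((L.z * a + (q : ℤ) * L.w * c) * L.w - L.z * (b * M * L.z + L.w * d)),
      -(((M : ℤ) * L.z * a + (q : ℤ) * L.w * M * c) * L.x)
        + L.α * ((q : ℤ) * M * L.z * b + (q : ℤ) * L.w * d)], ?_, dvd_mul_right _ _, ?_⟩
  · rw [Matrix.det_fin_two_of, Matrix.det_fin_two, hc, ← ha, ← hb, ← hd]
    linear_combination (a * d - b * ((q : ℤ) * M * c)) *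
      (((q : ℤ) * L.α * L.w - (M : ℤ) * L.z * L.x) + 1) * L.eq
  · ext i j
    fin_cases i <;> fin_cases j <;>
      simp [mat, Matrix.mul_apply, Fin.sum_univ_two, hc, ← ha, ← hb, ← hd]
    · linear_combination (-((q : ℤ) * L.α * a + L.x * ((q : ℤ) * M * c))) * L.eq
    · linear_combination (-((q : ℤ) * L.α * b + L.x * d)) * L.eq
    · linear_combination (-((q : ℤ) * M * L.z * a + (q : ℤ) * L.w * ((q : ℤ) * M * c))) * L.eq
    · linear_combination (-((q : ℤ) * M * L.z * b + (q : ℤ) * L.w * d)) * L.eq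

/-- The adjugate differs from the matrix by an element of `Γ₀(qM)`. -/
theorem exists_adj_eq : ∃ g : M2Z, g.det = 1 ∧ ((q * M : ℕ) : ℤ) ∣ g 1 0 ∧
    L.adj.mat = g * L.mat := by
  refine ⟨!![(q : ℤ) * L.w * L.w + M * L.x * L.z, -(L.x * (L.w + L.α));
    (q : ℤ) * M * (-(L.z * (L.w + L.α))), M * L.x * L.z + (q : ℤ) * L.α * L.α], ?_, ?_, ?_⟩
  · rw [Matrix.det_fin_two_of]
    linear_combination ((q : ℤ) * L.α * L.w - (M : ℤ) * L.z * L.x + 1) * L.eq
  · push_cast
    exact dvd_mul_right _ _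
  · ext i j
    fin_cases i <;> fin_cases j <;>
      simp [mat, adj, Matrix.mul_apply, Fin.sum_univ_two]
    · linear_combination (-((q : ℤ) * L.w)) * L.eq
    · linear_combination L.x * L.eq
    · linear_combination (q : ℤ) * M * L.z * L.eq
    · linear_combination (-((q : ℤ) * L.α)) * L.eq

end ALData

theorem exists_alData {q M : ℕ} (h : q.Coprime M) : Nonempty (ALData q M) := by
  obtain ⟨u, v, huv⟩ := (Int.isCoprime_iff_gcd_eq_one).2
    (show Int.gcd (q : ℤ) (M : ℤ) = 1 by rw [Int.gcd_natCast_natCast]; exact h)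
  exact ⟨⟨1, 1, -v, u, by linear_combination huv⟩⟩

variable {q M N : ℕ} [NeZero N]

omit [NeZero N] in
theorem alData_q_ne_zero [NeZero N] (hN : q * M = N) : q ≠ 0 := by
  rintro rfl
  simp [eq_comm, NeZero.ne N] at hN

theorem atkinLehner_invariant (hN : q * M = N) (L : ALData q M) (f : CuspForm (Gamma0 N) 2)
    (γ : GL (Fin 2) ℝ) (hγ : γ ∈ (Gamma0 N : Subgroup (GL (Fin 2) ℝ))) :
    (∑ _i : Unit, ⇑f ∣[(2 : ℤ)] intGL L.mat) ∣[(2 : ℤ)] γ
      = ∑ _i : Unit, ⇑f ∣[(2 : ℤ)] intGL L.mat := by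
  have hq := alData_q_ne_zero hN
  obtain ⟨g, hg, hgN, rfl⟩ := exists_eq_intGL_of_mem_Gamma0 hγ
  obtain ⟨X, hX, hXN, hmul⟩ := L.exists_conj hq (A := g) (hN.symm ▸ hgN)
  rw [hN] at hXN
  have hW : L.mat.det ≠ 0 := by rw [L.det_mat]; exact_mod_cast hq
  rw [hg] at hX
  simp only [Fintype.sum_unique]
  rw [← SlashAction.slash_mul, ← intGL_mul hW (by rw [hg]; exact one_ne_zero), hmul,
    intGL_mul (by rw [hX]; exact one_ne_zero) hW, SlashAction.slash_mul,
    SlashInvariantFormClass.slash_action_eq f _ (intGL_mem_Gamma0 hX hXN)]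

/-- The Atkin–Lehner operator `f ↦ f ∣ W`. -/
def atkinLehner (hN : q * M = N) (L : ALData q M) : Module.End ℂ (CuspForm (Gamma0 N) 2) :=
  slashSumLin (A := fun _ : Unit => L.mat)
    (fun _ => by rw [L.det_mat]; exact_mod_cast Nat.pos_of_ne_zero (alData_q_ne_zero hN))
    (atkinLehner_invariant hN L) 1

theorem coe_atkinLehner (hN : q * M = N) (L : ALData q M) (f : CuspForm (Gamma0 N) 2) :
    ⇑(atkinLehner hN L f) = ⇑f ∣[(2 : ℤ)] intGL L.mat := by
  rw [atkinLehner, coe_slashSumLin, one_smul, Fintype.sum_unique]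

/-- The Atkin–Lehner operator is an involution. -/
theorem atkinLehner_atkinLehner (hN : q * M = N) (L : ALData q M) (f : CuspForm (Gamma0 N) 2) :
    atkinLehner hN L (atkinLehner hN L f) = f := by
  refine DFunLike.coe_injective ?_
  have hq := alData_q_ne_zero hN
  obtain ⟨g, hg, hgN, hadj⟩ := L.exists_adj_eq
  rw [hN] at hgN
  have hW : L.mat.det ≠ 0 := by rw [L.det_mat]; exact_mod_cast hq
  have hW' : L.adj.mat.det ≠ 0 := by rw [L.adj.det_mat]; exact_mod_cast hq
  set h := atkinLehner hN L f with hh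
  have h1 : ⇑h ∣[(2 : ℤ)] intGL L.mat = ⇑h ∣[(2 : ℤ)] intGL L.adj.mat := by
    rw [hadj, intGL_mul (by rw [hg]; exact one_ne_zero) hW, SlashAction.slash_mul,
      SlashInvariantFormClass.slash_action_eq h _ (intGL_mem_Gamma0 hg hgN)]
  show ⇑(atkinLehner hN L h) = ⇑f
  rw [coe_atkinLehner, h1, hh, coe_atkinLehner, ← SlashAction.slash_mul, ← intGL_mul hW hW',
    L.mat_mul_adj, slash_intGL_scalar (by exact_mod_cast hq)]

/-- The Atkin–Lehner operator commutes with the Hecke operators prime to the level. -/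
theorem heckeTLin_atkinLehner (hN : q * M = N) (L : ALData q M) {ℓ : ℕ} (hℓ : ℓ.Prime)
    (hℓN : ¬ ℓ ∣ N) (f : CuspForm (Gamma0 N) 2) :
    CuspForm.heckeTLin 2 hℓ hℓN (atkinLehner hN L f)
      = atkinLehner hN L (CuspForm.heckeTLin 2 hℓ hℓN f) := by
  refine DFunLike.coe_injective ?_
  have hq := alData_q_ne_zero hN
  have hW : L.mat.det ≠ 0 := by rw [L.det_mat]; exact_mod_cast hq
  have hR : ∀ i, (heckeRepMat ℓ i).det ≠ 0 := fun i => (det_heckeRepMat_pos hℓ.ne_zero i).ne'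
  have hRN : ∀ i, ((q * M : ℕ) : ℤ) ∣ heckeRepMat ℓ i 1 0 := fun i => by
    cases i <;> simp [heckeRepMat]
  simp only [CuspForm.coe_heckeTLin_apply, coe_atkinLehner, heckeT_eq_sum hℓ.ne_zero]
  rw [SlashAction.sum_slash]
  simp_rw [← SlashAction.slash_mul]
  refine sum_slash_eq_of_cosets 2 (Gamma0 N : Subgroup (GL (Fin 2) ℝ))
    (fun γ hγ => SlashInvariantFormClass.slash_action_eq f γ hγ) _ _ (fun i => ?_)
    fun i i' hii => ?_
  · obtain ⟨X, hX, hXN, hmul⟩ := L.exists_conj hq (hRN i)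
    rw [det_heckeRepMat] at hX
    rw [hN] at hXN
    obtain ⟨j, g, hg, hgN, rfl⟩ := exists_rep hℓ hℓN hX hXN
    refine ⟨j, ?_⟩
    rw [← intGL_mul hW (hR i), hmul, Matrix.mul_assoc,
      intGL_mul (by rw [hg]; exact one_ne_zero)
        (by rw [Matrix.det_mul]; exact mul_ne_zero (hR j) hW),
      intGL_mul (hR j) hW, mul_inv_cancel_right]
    exact intGL_mem_Gamma0 hg hgN
  · obtain ⟨g, hg, hgN, he⟩ := exists_eq_intGL_of_mem_Gamma0 hii
    rw [mul_inv_eq_iff_eq_mul, ← intGL_mul hW (hR i), ← intGL_mul hW (hR i'),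
      ← intGL_mul (by rw [hg]; exact one_ne_zero)
        (by rw [Matrix.det_mul]; exact mul_ne_zero hW (hR i'))] at he
    have he' := intGL_injective (by rw [Matrix.det_mul]; exact mul_ne_zero hW (hR i))
      (by rw [Matrix.det_mul, Matrix.det_mul, hg, one_mul]; exact mul_ne_zero hW (hR i')) he
    obtain ⟨Y, hY, -, hmulY⟩ := L.adj.exists_conj hq (A := g) (hN.symm ▸ hgN)
    rw [hg] at hY
    have h2 : L.adj.mat * L.mat = !![(q : ℤ), 0; 0, q] := by
      have := L.adj.mat_mul_adj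
      have ha : L.adj.adj = L := by simp [ALData.adj]
      rwa [ha] at this
    have h3 := congrArg (L.adj.mat * ·) he'
    simp only [← Matrix.mul_assoc] at h3
    rw [hmulY, Matrix.mul_assoc Y, h2] at h3
    refine rep_injective hℓ hY (matSmul_cancel (Int.natCast_ne_zero.2 hq) ?_)
    have hc : Y * !![(q : ℤ), 0; 0, q] = !![(q : ℤ), 0; 0, q] * Y := by
      ext a b
      fin_cases a <;> fin_cases b <;> simp [Matrix.mul_apply, Fin.sum_univ_two] <;> ring
    rw [← Matrix.mul_assoc, ← hc]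
    exact h3
where
  matSmul_cancel {c : ℤ} (hc : c ≠ 0) {A B : M2Z}
      (h : !![c, 0; 0, c] * A = !![c, 0; 0, c] * B) : A = B := by
    ext i j
    have := congrFun (congrFun h i) j
    fin_cases i <;> fin_cases j <;>
      simpa [Matrix.mul_apply, Fin.sum_univ_two, hc] using this

end FermatLib.Modular.Newforms

end
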