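import Fermat.Agent.Modular.Newforms.IntMatrixSlash

/-!
# Right coset representatives of the Hecke operators
-/

set_option autoImplicit false

noncomputable section

open scoped MatrixGroups ModularForm
open CongruenceSubgroup UpperHalfPlane

namespace FermatLib.Modular.Newforms

local notation "M2Z" => Matrix (Fin 2) (Fin 2) ℤ

/-- The matrices `(1 j; 0 p)` and `(p 0; 0 1)`. -/
def heckeRepMat (p : ℕ) : Option (Fin p) → M2Z
  | some j => !![1, ((j : ℕ) : ℤ); 0, (p : ℤ)]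
  | none => !![(p : ℤ), 0; 0, 1]

theorem det_heckeRepMat (p : ℕ) (x : Option (Fin p)) : (heckeRepMat p x).det = p := by
  cases x <;> simp [heckeRepMat, Matrix.det_fin_two_of]

theorem det_heckeRepMat_pos {p : ℕ} (hp : p ≠ 0) (x : Option (Fin p)) :
    0 < (heckeRepMat p x).det := by
  rw [det_heckeRepMat]; exact_mod_cast Nat.pos_of_ne_zero hp

theorem heckeU_eq_sum {k : ℤ} {p : ℕ} (hp : p ≠ 0) (f : ℍ → ℂ) :
    ModularForm.heckeU k p f = ∑ j : Fin p, f ∣[k] intGL (heckeRepMat p (some j)) := by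
  simp only [ModularForm.heckeU_def, heckeRepMat]
  rw [← Fin.sum_univ_eq_sum_range (fun j => f ∣[k] ModularForm.heckeMatrix p j) p]
  exact Finset.sum_congr rfl fun j _ => by rw [heckeMatrix_eq_intGL hp]

theorem heckeT_eq_sum {k : ℤ} {p : ℕ} (hp : p ≠ 0) (f : ℍ → ℂ) :
    ModularForm.heckeT k p f = ∑ x : Option (Fin p), f ∣[k] intGL (heckeRepMat p x) := by
  rw [ModularForm.heckeT_eq_heckeU_add, heckeU_eq_sum hp, Fintype.sum_option, add_comm,
    heckeDiagMatrix_eq_intGL hp]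
  rfl

/-- An integral matrix of prime determinant `p` whose first column is not divisible by `p` lies
in the coset of some `(1 j; 0 p)`. -/
theorem exists_rep_some {N p : ℕ} (hp : p.Prime) {X : M2Z} (hX : X.det = p)
    (hN : (N : ℤ) ∣ X 1 0) (h : ¬ ((p : ℤ) ∣ X 0 0 ∧ (p : ℤ) ∣ X 1 0)) :
    ∃ (j : Fin p) (g : M2Z),
      g.det = 1 ∧ (N : ℤ) ∣ g 1 0 ∧ X = g * heckeRepMat p (some j) := by
  haveI := Fact.mk hp
  rw [Matrix.det_fin_two] at hX
  have hp0 : (p : ℤ) ≠ 0 := Int.natCast_ne_zero.2 hp.ne_zero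
  have hdet : ((X 0 0 : ZMod p) * X 1 1 - X 0 1 * X 1 0) = 0 := by
    have := congrArg (Int.cast : ℤ → ZMod p) hX
    push_cast at this
    simpa using this
  obtain ⟨t, hb, hd⟩ : ∃ t : ZMod p,
      (X 0 1 : ZMod p) = X 0 0 * t ∧ (X 1 1 : ZMod p) = X 1 0 * t := by
    by_cases ha : (X 0 0 : ZMod p) = 0
    · have hc : (X 1 0 : ZMod p) ≠ 0 := fun hc => h
        ⟨(ZMod.intCast_zmod_eq_zero_iff_dvd _ _).1 ha, (ZMod.intCast_zmod_eq_zero_iff_dvd _ _).1 hc⟩
      refine ⟨(X 1 1 : ZMod p) / X 1 0, ?_, by field_simp⟩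
      rw [ha, zero_mul, zero_sub, neg_eq_zero, mul_eq_zero] at hdet
      rw [ha, zero_mul]
      exact hdet.resolve_right hc
    · refine ⟨(X 0 1 : ZMod p) / X 0 0, by field_simp, ?_⟩
      field_simp
      linear_combination hdet
  obtain ⟨u, hu⟩ : (p : ℤ) ∣ X 0 1 - X 0 0 * t.val := by
    rw [← ZMod.intCast_zmod_eq_zero_iff_dvd]
    push_cast
    rw [ZMod.natCast_zmod_val, hb, sub_self]
  obtain ⟨v, hv⟩ : (p : ℤ) ∣ X 1 1 - X 1 0 * t.val := by
    rw [← ZMod.intCast_zmod_eq_zero_iff_dvd]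
    push_cast
    rw [ZMod.natCast_zmod_val, hd, sub_self]
  refine ⟨⟨t.val, t.val_lt⟩, !![X 0 0, u; X 1 0, v], ?_, hN, ?_⟩
  · rw [Matrix.det_fin_two_of]
    apply mul_left_cancel₀ hp0
    linear_combination hX - X 0 0 * hv + X 1 0 * hu
  · ext i j
    fin_cases i <;> fin_cases j <;>
      simp [-ZMod.natCast_val, heckeRepMat, Matrix.mul_apply, Fin.sum_univ_two]
    · linear_combination hu
    · linear_combination hv

/-- The cosets of `T p`: every matrix of determinant `p` in `Γ₀(N)`-shape, `p ∤ N`. -/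
theorem exists_rep {N p : ℕ} (hp : p.Prime) (hpN : ¬ p ∣ N) {X : M2Z} (hX : X.det = p)
    (hN : (N : ℤ) ∣ X 1 0) :
    ∃ (x : Option (Fin p)) (g : M2Z),
      g.det = 1 ∧ (N : ℤ) ∣ g 1 0 ∧ X = g * heckeRepMat p x := by
  by_cases h : (p : ℤ) ∣ X 0 0 ∧ (p : ℤ) ∣ X 1 0
  · obtain ⟨⟨a, ha⟩, c, hc⟩ := h
    have hp0 : (p : ℤ) ≠ 0 := Int.natCast_ne_zero.2 hp.ne_zero
    refine ⟨none, !![a, X 0 1; c, X 1 1], ?_, ?_, ?_⟩
    · rw [Matrix.det_fin_two] at hX
      rw [Matrix.det_fin_two_of]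
      apply mul_left_cancel₀ hp0
      rw [ha, hc] at hX
      linear_combination hX
    · show (N : ℤ) ∣ c
      refine Int.dvd_of_dvd_mul_right_of_gcd_one (hc ▸ hN) ?_
      rw [Int.gcd_natCast_natCast]
      exact ((hp.coprime_iff_not_dvd).2 hpN).symm
    · ext i j
      fin_cases i <;> fin_cases j <;> simp [heckeRepMat, Matrix.mul_apply, Fin.sum_univ_two]
      · linear_combination ha
      · linear_combination hc
  · obtain ⟨j, g, h1, h2, h3⟩ := exists_rep_some hp hX hN h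
    exact ⟨some j, g, h1, h2, h3⟩

theorem rep_injective {p : ℕ} (hp : p.Prime) {g : M2Z} (hg : g.det = 1) {x y : Option (Fin p)}
    (h : heckeRepMat p x = g * heckeRepMat p y) : x = y := by
  have e : ∀ i j, heckeRepMat p x i j = (g * heckeRepMat p y) i j := fun i j => by rw [h]
  have hp0 : (p : ℤ) ≠ 0 := Int.natCast_ne_zero.2 hp.ne_zero
  have hp1 : (p : ℤ) ≠ 1 := by exact_mod_cast hp.ne_one
  rw [Matrix.det_fin_two] at hg
  have e00 := e 0 0; have e01 := e 0 1; have e10 := e 1 0; have e11 := e 1 1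
  rcases x with _ | i <;> rcases y with _ | j <;>
    simp [heckeRepMat, Matrix.mul_apply, Fin.sum_univ_two] at e00 e01 e10 e11
  · rfl
  · exfalso
    rw [← e10, mul_zero, sub_zero, ← e00] at hg
    rcases Int.eq_one_or_neg_one_of_mul_eq_one hg with h1 | h1
    · exact hp1 h1
    · have : (0 : ℤ) ≤ p := by positivity
      omega
  · exfalso
    rcases Int.eq_one_or_neg_one_of_mul_eq_one e00.symm with h1 | h1
    · have : (p : ℤ) ∣ 1 := ⟨g 0 0, by linear_combination e00⟩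
      exact hp.not_dvd_one (Int.natCast_dvd_natCast.1 this)
    · have : (p : ℤ) ∣ 1 := ⟨g 0 0, by linear_combination e00⟩
      exact hp.not_dvd_one (Int.natCast_dvd_natCast.1 this)
  · have h00 : g 0 0 = 1 := e00.symm
    rw [h00, one_mul] at e01
    have hd : (p : ℤ) ∣ ((i : ℕ) : ℤ) - ((j : ℕ) : ℤ) := ⟨g 0 1, by linear_combination e01⟩
    rw [← Int.modEq_iff_dvd] at hd
    have := Int.natCast_modEq_iff.1 hd
    exact congrArg some (Fin.ext (Nat.ModEq.eq_of_lt_of_lt this j.2 i.2)).symm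

end FermatLib.Modular.Newforms

end
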