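import Fermat.Prelude.Def_ModularForm_HeckeOperatorForms
import Mathlib

/-!
# Slash by integral matrices and finite sums of translates

Tools for operators on cusp forms given by finitely many integral matrices.
-/

set_option autoImplicit false

noncomputable section

open scoped MatrixGroups ModularForm Manifold
open CongruenceSubgroup UpperHalfPlane
open Matrix.SpecialLinearGroup (mapGL)

namespace FermatLib.Modular.Newforms

local notation "M2Z" => Matrix (Fin 2) (Fin 2) ℤ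

variable {A B : M2Z}

/-- An integral matrix with nonzero determinant as an element of `GL(2, ℝ)`, junk value `1`. -/
def intGL (A : M2Z) : GL (Fin 2) ℝ :=
  if h : A.det = 0 then 1 else
    Matrix.GeneralLinearGroup.mkOfDetNeZero (A.map (Int.cast : ℤ → ℝ))
      (by rw [← Int.cast_det]; exact_mod_cast h)

theorem val_intGL (h : A.det ≠ 0) :
    (intGL A : Matrix (Fin 2) (Fin 2) ℝ) = A.map (Int.cast : ℤ → ℝ) := by
  simp [intGL, h, Matrix.GeneralLinearGroup.mkOfDetNeZero]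

theorem intGL_mul (hA : A.det ≠ 0) (hB : B.det ≠ 0) : intGL (A * B) = intGL A * intGL B := by
  have hAB : (A * B).det ≠ 0 := by rw [Matrix.det_mul]; exact mul_ne_zero hA hB
  refine Units.ext ?_
  rw [Units.val_mul, val_intGL hA, val_intGL hB, val_intGL hAB]
  exact Matrix.map_mul (f := Int.castRingHom ℝ)

theorem intGL_coe_SL (g : SL(2, ℤ)) : intGL (g : M2Z) = mapGL ℝ g := by
  refine Units.ext ?_
  rw [val_intGL (by rw [g.det_coe]; exact one_ne_zero)]
  ext i j
  simp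

theorem intGL_injective (hA : A.det ≠ 0) (hB : B.det ≠ 0) (h : intGL A = intGL B) : A = B := by
  have h' := congrArg (fun u : GL (Fin 2) ℝ => (u : Matrix (Fin 2) (Fin 2) ℝ)) h
  simp only [val_intGL hA, val_intGL hB] at h'
  ext i j
  exact Int.cast_injective (α := ℝ) (congrFun (congrFun h' i) j)

theorem intGL_det_pos (h : 0 < A.det) : 0 < ((intGL A).det : ℝ) := by
  rw [Matrix.GeneralLinearGroup.val_det_apply, val_intGL h.ne', ← Int.cast_det]
  exact_mod_cast h

theorem smul_slash_intGL {k : ℤ} (hA : 0 < A.det) (c : ℂ) (f : ℍ → ℂ) :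
    (c • f) ∣[k] intGL A = c • (f ∣[k] intGL A) := by
  rw [ModularForm.smul_slash, UpperHalfPlane.σ, if_pos (intGL_det_pos hA)]
  simp

theorem slash_intGL_scalar {d : ℤ} (hd : d ≠ 0) (f : ℍ → ℂ) :
    f ∣[(2 : ℤ)] intGL !![d, 0; 0, d] = f := by
  have hdet : (!![d, 0; 0, d] : M2Z).det = d * d := by simp [Matrix.det_fin_two_of]
  have hpos : 0 < (!![d, 0; 0, d] : M2Z).det := hdet ▸ mul_self_pos.2 hd
  have hval := val_intGL hpos.ne'
  have hdR : (d : ℝ) ≠ 0 := Int.cast_ne_zero.2 hd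
  ext τ
  have hsmul : intGL (!![d, 0; 0, d] : M2Z) • τ = τ := by
    refine UpperHalfPlane.ext ?_
    rw [coe_smul_of_det_pos (intGL_det_pos hpos)]
    have : (d : ℂ) ≠ 0 := Int.cast_ne_zero.2 hd
    simp [num, denom, hval]
    field_simp
  rw [ModularForm.slash_apply, hsmul, UpperHalfPlane.σ, if_pos (intGL_det_pos hpos),
    Matrix.GeneralLinearGroup.val_det_apply, hval, ← Int.cast_det, hdet]
  have hd' : (d : ℂ) ≠ 0 := Int.cast_ne_zero.2 hd
  simp [denom, hval]
  field_simp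

theorem heckeMatrix_eq_intGL {p : ℕ} (hp : p ≠ 0) (j : ℕ) :
    ModularForm.heckeMatrix p j = intGL !![1, (j : ℤ); 0, (p : ℤ)] := by
  have hd : (!![1, (j : ℤ); 0, (p : ℤ)] : M2Z).det ≠ 0 := by
    simp [Matrix.det_fin_two_of, hp]
  refine Units.ext ?_
  rw [val_intGL hd, ModularForm.val_heckeMatrix hp]
  ext i j
  fin_cases i <;> fin_cases j <;> simp

theorem heckeDiagMatrix_eq_intGL {p : ℕ} (hp : p ≠ 0) :
    ModularForm.heckeDiagMatrix p = intGL !![(p : ℤ), 0; 0, 1] := by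
  have hd : (!![(p : ℤ), 0; 0, 1] : M2Z).det ≠ 0 := by
    simp [Matrix.det_fin_two_of, hp]
  refine Units.ext ?_
  rw [val_intGL hd, ModularForm.val_heckeDiagMatrix hp]
  ext i j
  fin_cases i <;> fin_cases j <;> simp

/-- The image of `Γ₀(N)` in `GL(2, ℝ)` consists of the integral matrices of determinant one with
`N` dividing the lower left entry. -/
theorem intGL_mem_Gamma0 {N : ℕ} (hA : A.det = 1) (hN : (N : ℤ) ∣ A 1 0) :
    intGL A ∈ (Gamma0 N : Subgroup (GL (Fin 2) ℝ)) :=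
  ⟨⟨A, hA⟩, by rwa [SetLike.mem_coe, Gamma0_mem, ZMod.intCast_zmod_eq_zero_iff_dvd],
    (intGL_coe_SL _).symm⟩

theorem exists_eq_intGL_of_mem_Gamma0 {N : ℕ} {γ : GL (Fin 2) ℝ}
    (hγ : γ ∈ (Gamma0 N : Subgroup (GL (Fin 2) ℝ))) :
    ∃ g : M2Z, g.det = 1 ∧ (N : ℤ) ∣ g 1 0 ∧ γ = intGL g := by
  obtain ⟨g, hg, rfl⟩ := hγ
  refine ⟨g, g.det_coe, ?_, (intGL_coe_SL g).symm⟩
  rwa [SetLike.mem_coe, Gamma0_mem, ZMod.intCast_zmod_eq_zero_iff_dvd] at hg

/-- Two families of translates related coset by coset have the same sum. -/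
theorem sum_slash_eq_of_cosets {ι : Type*} [Fintype ι] (k : ℤ)
    (G : Subgroup (GL (Fin 2) ℝ)) {f : ℍ → ℂ} (hf : ∀ γ ∈ G, f ∣[k] γ = f)
    (a b : ι → GL (Fin 2) ℝ) (hex : ∀ i, ∃ j, a i * (b j)⁻¹ ∈ G)
    (hinj : ∀ i i', a i * (a i')⁻¹ ∈ G → i = i') :
    ∑ i, f ∣[k] a i = ∑ j, f ∣[k] b j := by
  choose σ hσ using hex
  have hσi : Function.Injective σ := fun i i' h => hinj i i' <| by
    have := G.mul_mem (hσ i) (G.inv_mem (hσ i'))
    rwa [h, mul_inv_rev, inv_inv, ← mul_assoc, inv_mul_cancel_right] at this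
  refine Fintype.sum_bijective σ (Finite.injective_iff_bijective.1 hσi) _ _ fun i => ?_
  conv_lhs => rw [← inv_mul_cancel_right (a i) (b (σ i)), SlashAction.slash_mul, hf _ (hσ i)]

theorem isCusp_Gamma0_map {N : ℕ} [NeZero N] {c : OnePoint ℝ} (g : GL (Fin 2) ℚ)
    (hc : IsCusp c 𝒮ℒ) :
    IsCusp (Matrix.GeneralLinearGroup.map (Rat.castHom ℝ) g • c)
      (Gamma0 N : Subgroup (GL (Fin 2) ℝ)) := by
  rw [Subgroup.IsArithmetic.isCusp_iff_isCusp_SL2Z, isCusp_SL2Z_iff]
  rw [isCusp_SL2Z_iff] at hc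
  obtain ⟨c, rfl⟩ := hc
  exact ⟨g • c, by rw [← Rat.coe_castHom, OnePoint.map_smul]⟩

theorem isZeroAt_slash_intGL {N : ℕ} [NeZero N] {k : ℤ} (f : CuspForm (Gamma0 N) k)
    (hA : A.det ≠ 0) {c : OnePoint ℝ} (hc : IsCusp c 𝒮ℒ) :
    c.IsZeroAt (⇑f ∣[k] intGL A) k := by
  obtain ⟨g, hg⟩ : ∃ g : GL (Fin 2) ℚ,
      intGL A = Matrix.GeneralLinearGroup.map (Rat.castHom ℝ) g := by
    refine ⟨Matrix.GeneralLinearGroup.mkOfDetNeZero (A.map (Int.cast : ℤ → ℚ))
      (by rw [← Int.cast_det]; exact_mod_cast hA), Units.ext ?_⟩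
    rw [val_intGL hA]
    ext i j
    simp [Matrix.GeneralLinearGroup.mkOfDetNeZero]
  rw [hg]
  exact OnePoint.IsZeroAt.smul_iff.mp (CuspFormClass.zero_at_cusps f (isCusp_Gamma0_map g hc))

theorem isZeroAt_finset_sum {ι : Type*} {c : OnePoint ℝ} {k : ℤ} (s : Finset ι)
    {f : ι → ℍ → ℂ} (hf : ∀ i ∈ s, c.IsZeroAt (f i) k) : c.IsZeroAt (∑ i ∈ s, f i) k := by
  classical
  induction s using Finset.induction_on with
  | empty =>
    intro g _
    rw [Finset.sum_empty, SlashAction.zero_slash]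
    exact Filter.zero_zeroAtFilter _
  | insert a s ha ih =>
    rw [Finset.sum_insert ha]
    exact (hf a (Finset.mem_insert_self a s)).add
      (ih fun i hi => hf i (Finset.mem_insert_of_mem hi))

section SlashSum

variable {N L : ℕ} [NeZero N] [NeZero L] {ι : Type} [Fintype ι] {k : ℤ} {A : ι → M2Z}
  (hA : ∀ i, 0 < (A i).det)
  (hinv : ∀ f : CuspForm (Gamma0 N) k, ∀ γ ∈ (Gamma0 L : Subgroup (GL (Fin 2) ℝ)),
    (∑ i, ⇑f ∣[k] intGL (A i)) ∣[k] γ = ∑ i, ⇑f ∣[k] intGL (A i))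

/-- The sum of the translates of a cusp form, when invariant at level `L`. -/
def slashSumForm (f : CuspForm (Gamma0 N) k) : CuspForm (Gamma0 L) k where
  toFun := ∑ i, ⇑f ∣[k] intGL (A i)
  slash_action_eq' := hinv f
  holo' := by
    refine Finset.sum_induction _ (fun F : ℍ → ℂ => MDiff F) (fun _ _ h h' => h.add h')
      mdifferentiable_const fun i _ => ?_
    exact (CuspFormClass.holo f).slash k _
  zero_at_cusps' hc := isZeroAt_finset_sum _ fun i _ =>
    isZeroAt_slash_intGL f (hA i).ne'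
      ((Subgroup.IsArithmetic.isCusp_iff_isCusp_SL2Z _).1 hc)

theorem coe_slashSumForm (f : CuspForm (Gamma0 N) k) :
    ⇑(slashSumForm hA hinv f) = ∑ i, ⇑f ∣[k] intGL (A i) := rfl

/-- The operator `f ↦ c • ∑ i, f ∣ A i` between two levels, when it preserves invariance. -/
def slashSumLin (c : ℂ) : CuspForm (Gamma0 N) k →ₗ[ℂ] CuspForm (Gamma0 L) k :=
  c • { toFun := slashSumForm hA hinv
        map_add' := fun f g => DFunLike.coe_injective <| by
          simp only [FunLike.coe_add, coe_slashSumForm, SlashAction.add_slash,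
            Finset.sum_add_distrib]
        map_smul' := fun r f => DFunLike.coe_injective <| by
          simp only [RingHom.id_apply, FunLike.coe_smul, coe_slashSumForm,
            smul_slash_intGL (hA _), Finset.smul_sum] }

theorem coe_slashSumLin (c : ℂ) (f : CuspForm (Gamma0 N) k) :
    ⇑(slashSumLin hA hinv c f) = c • ∑ i, ⇑f ∣[k] intGL (A i) := by
  rw [slashSumLin, LinearMap.smul_apply, FunLike.coe_smul]
  rfl

end SlashSum

end FermatLib.Modular.Newforms

end
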